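import Fermat.Agent.S22.H92.Vert
import Fermat.Prelude.Def_CuspForm_HeckeAlgebra

/-!
# S22 via modular symbols: shared definitions (design V1, helper92)

`k = m + 2`.  For a cusp form `f` and a polynomial weight `W` of degree `≤ m`, the modular symbol
`∫_{g₁ ∞}^{g₂ ∞} f(z) W(z) dz` is defined through a primitive `G` of `f W` on the upper half plane
and its limits at the cusps `g₁ ∞`, `g₂ ∞` (`g₁ g₂ ∈ SL(2, ℤ)`).
-/

set_option autoImplicit false

open Complex UpperHalfPlane Filter Topology Polynomial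
open scoped MatrixGroups ModularForm

namespace Fermat.Agent.S22.H92

/-- `G` is a primitive of `H` on the upper half plane. -/
def IsPrim (G H : ℂ → ℂ) : Prop := ∀ z : ℂ, 0 < z.im → HasDerivAt G (H z) z

/-- The integrand `f(z) W(z)` as a function on `ℂ`. -/
noncomputable def integrand (f : ℍ → ℂ) (W : ℂ[X]) : ℂ → ℂ := fun z ↦ f (ofComplex z) * W.eval z

/-- Moebius action of `SL(2, ℤ)` on `ℂ`, as a plain function. -/
noncomputable def moeb (g : SL(2, ℤ)) (z : ℂ) : ℂ :=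
  ((g 0 0 : ℂ) * z + (g 0 1 : ℂ)) / ((g 1 0 : ℂ) * z + (g 1 1 : ℂ))

/-- `G` has limit `L` at the cusp `g ∞`: along the image under `g` of every vertical line. -/
def HasCuspLim (G : ℂ → ℂ) (g : SL(2, ℤ)) (L : ℂ) : Prop :=
  ∀ x : ℝ, Tendsto (fun s : ℝ ↦ G (moeb g (x + s * Complex.I))) atTop (𝓝 L)

/-- Weight `m` action of a 2x2 matrix `[[a, b], [c, d]]` on polynomials of degree `≤ m`:
`W ↦ (cX + d)^m W((aX + b)/(cX + d))`. -/
noncomputable def polyAct {R : Type*} [CommRing R] (m : ℕ) (a b c d : R) (W : R[X]) : R[X] :=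
  ∑ j ∈ Finset.range (m + 1), C (W.coeff j) * (C a * X + C b) ^ j * (C c * X + C d) ^ (m - j)

/-- Integral weights: integer polynomials of degree `≤ m`, viewed in `ℂ[X]`. -/
def IsIntWeight (m : ℕ) (W : ℂ[X]) : Prop :=
  ∃ W₀ : ℤ[X], W₀.natDegree ≤ m ∧ W = W₀.map (Int.castRingHom ℂ)

/-- `v` is the modular symbol `∫_{g₁ ∞}^{g₂ ∞} f(z) W(z) dz`. -/
def IsSymb (f : ℍ → ℂ) (W : ℂ[X]) (g₁ g₂ : SL(2, ℤ)) (v : ℂ) : Prop :=
  ∃ (G : ℂ → ℂ) (L₁ L₂ : ℂ), IsPrim G (integrand f W) ∧ HasCuspLim G g₁ L₁ ∧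
    HasCuspLim G g₂ L₂ ∧ v = L₂ - L₁

/-- The linear functionals on `S_{m+2}(Γ₀(N))` computing a modular symbol with integral weight. -/
def symbSet (N m : ℕ) :
    Set (Module.Dual ℂ (CuspForm (CongruenceSubgroup.Gamma0 N) ((m : ℤ) + 2))) :=
  {φ | ∃ (W : ℂ[X]) (g₁ g₂ : SL(2, ℤ)), IsIntWeight m W ∧
    ∀ f : CuspForm (CongruenceSubgroup.Gamma0 N) ((m : ℤ) + 2), IsSymb (⇑f) W g₁ g₂ (φ f)}

/-- The lattice of modular symbols inside the dual of `S_{m+2}(Γ₀(N))`. -/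
def lattice (N m : ℕ) :
    Submodule ℤ (Module.Dual ℂ (CuspForm (CongruenceSubgroup.Gamma0 N) ((m : ℤ) + 2))) :=
  Submodule.span ℤ (symbSet N m)

end Fermat.Agent.S22.H92
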