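/-
S22, route B (helper92): the derivative ladder for helper8's Eichler integral `H8.gfun`.

`gfun n f τ = ∫_{i∞}^τ f(w) (τ - w)^n dw` satisfies `d/dτ gfun (n+1) f = (n+1) • gfun n f` and
`d/dτ gfun 0 f = f`; hence `D^[n+1] (gfun n f) = (n! / (2πi)^(n+1)) • f`, and together with
helper62's separation theorem: if `gfun n f` is invariant of weight `-n` under `Γ₀(N)` then the
cusp form `f` vanishes.
-/
import Fermat.Agent.S22.H8.Core
import Fermat.Agent.S22.H62.Separation

set_option autoImplicit false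

open UpperHalfPlane hiding I
open Real Complex Filter Topology
open scoped MatrixGroups Manifold ModularForm
open Derivative

namespace Fermat.Agent.S22.H92

open Fermat.Agent.S22.H8

noncomputable section

/-- `gC n f z = ∫_{i∞}^z f(w) (z - w)^n dw` as a function on `ℂ`. -/
def gC (n : ℕ) (f : ℍ → ℂ) (z : ℂ) : ℂ := symb n f ![z, 1] z

theorem gC_eq (n : ℕ) (f : ℍ → ℂ) (z : ℂ) :
    gC n f z =
      ∑ m ∈ Finset.range (n + 1), (n.choose m : ℂ) * z ^ (n - m) * (-1) ^ m * primJ f m z := by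
  simp [gC, symb]

theorem gfun_eq_gC (n : ℕ) (f : ℍ → ℂ) (τ : ℍ) : gfun n f τ = gC n f τ := rfl

theorem hasDerivAt_gC_zero {f : ℍ → ℂ} (hf : IsGood f) {z : ℂ} (hz : 0 < z.im) :
    HasDerivAt (gC 0 f) ((f ∘ ofComplex) z) z := by
  have h := hasDerivAt_primJ hf 0 hz
  have h0 : gC 0 f = primJ f 0 := by
    funext w
    simp [gC_eq]
  rw [h0]
  simpa using h

theorem alt_sum_choose_mul_pow (n : ℕ) (z : ℂ) :
    ∑ m ∈ Finset.range (n + 2), ((n + 1).choose m : ℂ) * (-1) ^ m * (z ^ (n + 1 - m) * z ^ m) =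
      0 := by
  have h := add_pow (-z) z (n + 1)
  rw [neg_add_cancel, zero_pow (Nat.succ_ne_zero n)] at h
  rw [h]
  refine Finset.sum_congr rfl fun m _ => ?_
  rw [neg_pow]
  ring

theorem hasDerivAt_gC_succ {f : ℍ → ℂ} (hf : IsGood f) (n : ℕ) {z : ℂ} (hz : 0 < z.im) :
    HasDerivAt (gC (n + 1) f) ((n + 1 : ℂ) * gC n f z) z := by
  have h1 : ∀ m ∈ Finset.range (n + 2), HasDerivAt
      (fun w => ((n + 1).choose m : ℂ) * w ^ (n + 1 - m) * (-1) ^ m * primJ f m w)
      (((n + 1).choose m : ℂ) * (-1) ^ m *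
        (((n + 1 - m : ℕ) : ℂ) * z ^ (n + 1 - m - 1) * primJ f m z +
          z ^ (n + 1 - m) * ((f ∘ ofComplex) z * z ^ m))) z := by
    intro m _
    have hp : HasDerivAt (fun w : ℂ => w ^ (n + 1 - m))
        (((n + 1 - m : ℕ) : ℂ) * z ^ (n + 1 - m - 1)) z := hasDerivAt_pow _ z
    have h := (hp.mul (hasDerivAt_primJ hf m hz)).const_mul (((n + 1).choose m : ℂ) * (-1) ^ m)
    have hfun : (fun w => ((n + 1).choose m : ℂ) * w ^ (n + 1 - m) * (-1) ^ m * primJ f m w) =
        fun w => ((n + 1).choose m : ℂ) * (-1) ^ m * (w ^ (n + 1 - m) * primJ f m w) := by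
      funext w
      ring
    rw [hfun]
    exact h
  have h2 := HasDerivAt.fun_sum h1
  have hfun : gC (n + 1) f = fun w => ∑ m ∈ Finset.range (n + 2),
      ((n + 1).choose m : ℂ) * w ^ (n + 1 - m) * (-1) ^ m * primJ f m w := by
    funext w
    rw [gC_eq]
  rw [hfun]
  refine h2.congr_deriv ?_
  have hsplit : ∀ m ∈ Finset.range (n + 2),
      ((n + 1).choose m : ℂ) * (-1) ^ m *
        (((n + 1 - m : ℕ) : ℂ) * z ^ (n + 1 - m - 1) * primJ f m z +
          z ^ (n + 1 - m) * ((f ∘ ofComplex) z * z ^ m)) =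
      ((n + 1).choose m : ℂ) * ((n + 1 - m : ℕ) : ℂ) * (-1) ^ m * z ^ (n + 1 - m - 1) *
          primJ f m z +
        (f ∘ ofComplex) z *
          (((n + 1).choose m : ℂ) * (-1) ^ m * (z ^ (n + 1 - m) * z ^ m)) := by
    intro m _
    ring
  rw [Finset.sum_congr rfl hsplit, Finset.sum_add_distrib, ← Finset.mul_sum,
    alt_sum_choose_mul_pow, mul_zero, add_zero, Finset.sum_range_succ, Nat.sub_self,
    Nat.cast_zero, mul_zero, zero_mul, zero_mul, zero_mul, add_zero, gC_eq, Finset.mul_sum]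
  refine Finset.sum_congr rfl fun m hm => ?_
  have hm' : m ≤ n := Nat.lt_succ_iff.mp (Finset.mem_range.mp hm)
  have hc : ((n + 1).choose m : ℂ) * ((n + 1 - m : ℕ) : ℂ) = (n.choose m : ℂ) * (n + 1 : ℂ) := by
    have := Nat.choose_mul_succ_eq n m
    exact_mod_cast this.symm
  have he : n + 1 - m - 1 = n - m := by omega
  rw [hc, he]
  ring

theorem differentiableAt_gC {f : ℍ → ℂ} (hf : IsGood f) (n : ℕ) {z : ℂ} (hz : 0 < z.im) :
    DifferentiableAt ℂ (gC n f) z := by
  cases n with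
  | zero => exact (hasDerivAt_gC_zero hf hz).differentiableAt
  | succ n => exact (hasDerivAt_gC_succ hf n hz).differentiableAt

theorem gfun_comp_ofComplex_eventuallyEq (n : ℕ) (f : ℍ → ℂ) {z : ℂ} (hz : 0 < z.im) :
    (gfun n f ∘ ofComplex) =ᶠ[𝓝 z] gC n f := by
  have hopen : IsOpen {w : ℂ | 0 < w.im} := isOpen_lt continuous_const Complex.continuous_im
  filter_upwards [hopen.mem_nhds hz] with w hw
  simp only [Function.comp_apply, gfun_eq_gC, ofComplex_apply_of_im_pos hw]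

theorem mdiff_gfun {f : ℍ → ℂ} (hf : IsGood f) (n : ℕ) : MDiff (gfun n f) := by
  rw [UpperHalfPlane.mdifferentiable_iff]
  intro z hz
  exact ((differentiableAt_gC hf n hz).congr_of_eventuallyEq
    (gfun_comp_ofComplex_eventuallyEq n f hz)).differentiableWithinAt

theorem D_gfun_zero {f : ℍ → ℂ} (hf : IsGood f) :
    D (gfun 0 f) = (2 * π * I)⁻¹ • f := by
  funext τ
  have h := (hasDerivAt_gC_zero hf τ.im_pos).congr_of_eventuallyEq
    (gfun_comp_ofComplex_eventuallyEq 0 f τ.im_pos)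
  simp only [normalizedDerivOfComplex, h.deriv, Function.comp_apply, ofComplex_apply, Pi.smul_apply,
    smul_eq_mul]

theorem D_gfun_succ {f : ℍ → ℂ} (hf : IsGood f) (n : ℕ) :
    D (gfun (n + 1) f) = ((n + 1 : ℂ) / (2 * π * I)) • gfun n f := by
  funext τ
  have h := (hasDerivAt_gC_succ hf n τ.im_pos).congr_of_eventuallyEq
    (gfun_comp_ofComplex_eventuallyEq (n + 1) f τ.im_pos)
  simp only [normalizedDerivOfComplex, h.deriv, Pi.smul_apply, smul_eq_mul, gfun_eq_gC]
  ring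

theorem two_pi_I_ne_zero' : (2 * π * I : ℂ) ≠ 0 := by
  simp [Real.pi_ne_zero]

/-- The `(n+1)`-st normalised derivative of the Eichler integral `gfun n f` is a nonzero multiple
of `f`. -/
theorem iterate_D_gfun {f : ℍ → ℂ} (hf : IsGood f) (n : ℕ) :
    D^[n + 1] (gfun n f) = ((n.factorial : ℂ) / (2 * π * I) ^ (n + 1)) • f := by
  induction n with
  | zero =>
    rw [Function.iterate_one, D_gfun_zero hf]
    simp
  | succ n ih =>
    rw [Function.iterate_succ_apply, D_gfun_succ hf n, H72.iterate_D_smul _ _ (mdiff_gfun hf n),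
      ih, smul_smul]
    congr 1
    have h := two_pi_I_ne_zero'
    rw [Nat.factorial_succ]
    push_cast
    field_simp
    ring

/-- The normalising constant `(2πi)^(n+1) / n!`. -/
def sepConst (n : ℕ) : ℂ := (2 * π * I) ^ (n + 1) / (n.factorial : ℂ)

theorem sepConst_ne_zero (n : ℕ) : sepConst n ≠ 0 :=
  div_ne_zero (pow_ne_zero _ two_pi_I_ne_zero') (Nat.cast_ne_zero.mpr n.factorial_ne_zero)

theorem mdiff_sepConst_smul_gfun {f : ℍ → ℂ} (hf : IsGood f) (n : ℕ) :
    MDiff (sepConst n • gfun n f) :=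
  (mdiff_gfun hf n).const_smul _

theorem iterate_D_sepConst_smul_gfun {f : ℍ → ℂ} (hf : IsGood f) (n : ℕ) :
    D^[n + 1] (sepConst n • gfun n f) = f := by
  rw [H72.iterate_D_smul _ _ (mdiff_gfun hf n), iterate_D_gfun hf n, smul_smul]
  have h1 : sepConst n * ((n.factorial : ℂ) / (2 * π * I) ^ (n + 1)) = 1 := by
    have h := two_pi_I_ne_zero'
    have h2 : (n.factorial : ℂ) ≠ 0 := Nat.cast_ne_zero.mpr n.factorial_ne_zero
    unfold sepConst
    field_simp
  rw [h1, one_smul]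

theorem exists_sep_primitive {f : ℍ → ℂ} (hf : IsGood f) (n : ℕ) :
    ∃ c : ℂ, c ≠ 0 ∧ MDiff (c • gfun n f) ∧ D^[n + 1] (c • gfun n f) = f :=
  ⟨sepConst n, sepConst_ne_zero n, mdiff_sepConst_smul_gfun hf n,
    iterate_D_sepConst_smul_gfun hf n⟩

/-- **Separation for the Eichler integral.** If `gfun n f` is invariant of weight `-n` under
`Γ₀(N)` then the cusp form `f` of weight `n + 2` vanishes. -/
theorem eq_zero_of_gfun_invariant (N : ℕ) [NeZero N] (n : ℕ)
    (f : CuspForm (CongruenceSubgroup.Gamma0 N) ((n : ℤ) + 2))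
    (hinv : ∀ γ : SL(2, ℤ), γ ∈ CongruenceSubgroup.Gamma0 N →
      gfun n (f : ℍ → ℂ) ∣[-(n : ℤ)] γ = gfun n (f : ℍ → ℂ)) : f = 0 := by
  have hf : IsGood (f : ℍ → ℂ) := isGood_cuspForm f
  refine H62.separation_core N n f (sepConst n • gfun n (f : ℍ → ℂ))
    (mdiff_sepConst_smul_gfun hf n) (iterate_D_sepConst_smul_gfun hf n) fun γ hγ => ?_
  rw [ModularForm.SL_smul_slash, hinv γ hγ]

end

end Fermat.Agent.S22.H92
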