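/-
S22, route B (helper92): separation for helper8's modular-symbol lattice `H8.Lat`.

If every functional of `Lat N n` vanishes on the cusp form `f`, then all modular symbols
`msym n f γ v` (`γ ∈ Γ₀(N)`, `v ∈ ℂ²`) vanish, hence the Eichler integral `gfun n f` is invariant
of weight `-n` under `Γ₀(N)`, hence `f = 0` by `H92.eq_zero_of_gfun_invariant`.
-/
import Fermat.Agent.S22.H8.Lattice
import Fermat.Agent.S22.H92.Ladder

set_option autoImplicit false

open UpperHalfPlane hiding I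
open Real Complex Filter Topology Polynomial CongruenceSubgroup Matrix.SpecialLinearGroup
open scoped MatrixGroups Manifold ModularForm

namespace Fermat.Agent.S22.H92

open Fermat.Agent.S22.H8

noncomputable section

/-- A complex polynomial vanishing at all integers is zero. -/
theorem poly_eq_zero_of_forall_int (P : ℂ[X]) (h : ∀ k : ℤ, P.eval (k : ℂ) = 0) : P = 0 := by
  refine Polynomial.eq_zero_of_infinite_isRoot P
    ((Set.infinite_range_of_injective (Int.cast_injective (α := ℂ))).mono ?_)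
  rintro _ ⟨k, rfl⟩
  exact h k

/-- The polynomial `t ↦ symb n f ![α t + β, γ t + δ] z`. -/
def symbPoly (n : ℕ) (f : ℍ → ℂ) (α β γ δ z : ℂ) : ℂ[X] :=
  ∑ m ∈ Finset.range (n + 1), C (n.choose m : ℂ) * (C α * X + C β) ^ (n - m) *
    (-(C γ * X + C δ)) ^ m * C (primJ f m z)

theorem eval_symbPoly (n : ℕ) (f : ℍ → ℂ) (α β γ δ z t : ℂ) :
    (symbPoly n f α β γ δ z).eval t = symb n f ![α * t + β, γ * t + δ] z := by
  simp [symbPoly, symb, Polynomial.eval_finsetSum]

theorem symb_congr (n : ℕ) (f : ℍ → ℂ) {p q p' q' : ℂ} (z : ℂ) (hp : p = p') (hq : q = q') :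
    symb n f ![p, q] z = symb n f ![p', q'] z := by
  rw [hp, hq]

/-- A "two-variable polynomial identity" for `symb`: it suffices to check it on `ℤ²`. -/
theorem symb_two_var (n : ℕ) (f : ℍ → ℂ) (a b c d z₁ z₀ : ℂ)
    (h : ∀ k l : ℤ, symb n f ![a * k + b * l, c * k + d * l] z₁ = symb n f ![(k : ℂ), (l : ℂ)] z₀)
    (x y : ℂ) :
    symb n f ![a * x + b * y, c * x + d * y] z₁ = symb n f ![x, y] z₀ := by
  have step1 : ∀ (x : ℂ) (l : ℤ),
      symb n f ![a * x + b * l, c * x + d * l] z₁ = symb n f ![x, (l : ℂ)] z₀ := by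
    intro x l
    have hP : symbPoly n f a (b * l) c (d * l) z₁ - symbPoly n f 1 0 0 l z₀ = 0 := by
      refine poly_eq_zero_of_forall_int _ fun k => ?_
      rw [Polynomial.eval_sub, eval_symbPoly, eval_symbPoly, sub_eq_zero, h k l]
      exact symb_congr n f z₀ (by ring) (by ring)
    have h3 := congrArg (Polynomial.eval x) hP
    rw [Polynomial.eval_sub, eval_symbPoly, eval_symbPoly, Polynomial.eval_zero, sub_eq_zero] at h3
    rw [h3]
    exact symb_congr n f z₀ (by ring) (by ring)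
  have hP : symbPoly n f b (a * x) d (c * x) z₁ - symbPoly n f 0 x 1 0 z₀ = 0 := by
    refine poly_eq_zero_of_forall_int _ fun l => ?_
    rw [Polynomial.eval_sub, eval_symbPoly, eval_symbPoly, sub_eq_zero,
      symb_congr n f z₁ (p' := a * x + b * l) (q' := c * x + d * l) (by ring) (by ring),
      step1 x l]
    exact symb_congr n f z₀ (by ring) (by ring)
  have h3 := congrArg (Polynomial.eval y) hP
  rw [Polynomial.eval_sub, eval_symbPoly, eval_symbPoly, Polynomial.eval_zero, sub_eq_zero] at h3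
  rw [symb_congr n f z₁ (p' := b * y + a * x) (q' := d * y + c * x) (by ring) (by ring), h3]
  exact symb_congr n f z₀ (by ring) (by ring)

theorem msym_vec_eq (n : ℕ) (f : ℍ → ℂ) (A : GL (Fin 2) ℝ) (x y : ℂ) :
    msym n f A ![x, y] =
      symb n f ![((A 0 0 : ℝ) : ℂ) * x + ((A 0 1 : ℝ) : ℂ) * y,
        ((A 1 0 : ℝ) : ℂ) * x + ((A 1 1 : ℝ) : ℂ) * y] (mob A Complex.I) -
      symb n f ![x, y] Complex.I := by
  have hsymb : ∀ (u u' : Fin 2 → ℂ) (z : ℂ), u 0 = u' 0 → u 1 = u' 1 →
      symb n f u z = symb n f u' z := by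
    intro u u' z h0 h1
    simp [symb, h0, h1]
  rw [msym]
  congr 1
  exact hsymb _ _ _ (by rw [actV_apply_zero]; simp) (by rw [actV_apply_one]; simp)

/-- If the modular symbol vanishes on integral vectors, it vanishes on all complex vectors. -/
theorem msym_eq_zero_of_int (n : ℕ) (f : ℍ → ℂ) (A : GL (Fin 2) ℝ)
    (h : ∀ w : Fin 2 → ℤ, msym n f A (intVec w) = 0) (v : Fin 2 → ℂ) : msym n f A v = 0 := by
  have hv : v = ![v 0, v 1] := by
    funext i
    fin_cases i <;> simp
  rw [hv, msym_vec_eq, sub_eq_zero]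
  refine symb_two_var n f _ _ _ _ _ _ (fun k l => ?_) _ _
  have h1 := h ![k, l]
  have h2 : intVec ![k, l] = ![(k : ℂ), (l : ℂ)] := by
    funext i
    fin_cases i <;> simp [intVec]
  rw [h2, msym_vec_eq, sub_eq_zero] at h1
  exact h1

/-- Vanishing of the modular symbol of `γ` gives invariance of the Eichler integral under `γ`. -/
theorem gfun_slash_of_msym_eq_zero {n : ℕ} {f : ℍ → ℂ} (hf : IsGood f) (γ : SL(2, ℤ))
    (hfγ : f ∣[(n : ℤ) + 2] (mapGL ℝ γ) = f)
    (h : ∀ v : Fin 2 → ℂ, msym n f (mapGL ℝ γ) v = 0) :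
    gfun n f ∣[-(n : ℤ)] γ = gfun n f := by
  funext τ
  have hA : 0 < (mapGL ℝ γ).det.val := det_mapGL_pos γ
  have h1 := symb_mob_eq hf hA hfγ ![(τ : ℂ), 1] τ
  rw [h ![(τ : ℂ), 1], zero_add] at h1
  rw [ModularForm.SL_slash_apply, neg_neg, zpow_natCast]
  have hmob : mob (mapGL ℝ γ) τ = ((γ • τ : ℍ) : ℂ) := mob_coe hA τ
  have hden : denom (mapGL ℝ γ) τ ≠ 0 := denom_ne_zero _ τ
  have hvec : actV (mapGL ℝ γ) ![(τ : ℂ), 1] =
      denom (mapGL ℝ γ) τ • ![((γ • τ : ℍ) : ℂ), 1] := by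
    rw [← hmob]
    funext i
    fin_cases i
    · simp only [Fin.zero_eta, actV_apply_zero, Pi.smul_apply, smul_eq_mul, mob,
        Matrix.cons_val_zero, Matrix.cons_val_one]
      rw [mul_div_cancel₀ _ hden]
      simp [num]
    · simp only [Fin.mk_one, actV_apply_one, Pi.smul_apply, smul_eq_mul,
        Matrix.cons_val_zero, Matrix.cons_val_one]
      simp [denom]
  rw [hvec, symb_smul_vec, hmob] at h1
  show symb n f ![((γ • τ : ℍ) : ℂ), 1] ((γ • τ : ℍ) : ℂ) * denom (γ : GL (Fin 2) ℝ) τ ^ n = _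
  rw [mul_comm]
  exact h1

variable (N : ℕ) [NeZero N] (n : ℕ)

/-- **Separation**: a cusp form killed by the whole lattice of modular symbols is zero. -/
theorem Lat_sep (f : CuspForm (Gamma0 N) ((n : ℤ) + 2))
    (h : ∀ l ∈ Lat N n, l f = 0) : f = 0 := by
  refine eq_zero_of_gfun_invariant N n f fun γ hγ => ?_
  refine gfun_slash_of_msym_eq_zero (isGood_cuspForm f) γ (slash_mapGL_eq N f hγ) ?_
  refine msym_eq_zero_of_int n f _ fun w => ?_
  have := h (piFun N n γ (intVec w)) (Submodule.subset_span ⟨γ, hγ, w, rfl⟩)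
  simpa using this

end

end Fermat.Agent.S22.H92
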