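/-
S22, route B (helper92): final assembly. The Hecke algebra of cusp forms of level `Γ₀(N)` and any
weight is a finitely generated `ℤ`-module.

Chain: helper8's lattice of modular symbols `H8.Lat` (finitely generated, stable under `T_p` and
`U_q`), separation `H92.Lat_sep` (Eichler integral + helper62's separation theorem), and helper75's
algebra core (`H75.finite_heckeAlgebra_of_lattice`, weights `≤ 1`).
-/
import Fermat.Agent.S22.H8.Stable
import Fermat.Agent.S22.H92.LatSep
import Fermat.Agent.S22.H75.HeckeAssembly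
import Fermat.Agent.S22.H75.TrivialLeOne

set_option autoImplicit false

namespace Fermat.Agent.S22.H92

/-- Weights `n + 2`. -/
theorem moduleFinite_heckeAlgebra_add_two (N : ℕ) [NeZero N] (n : ℕ) (S : Set ℕ) :
    Module.Finite ℤ (CuspForm.heckeAlgebra N ((n : ℤ) + 2) S) :=
  H75.finite_heckeAlgebra_of_lattice N ((n : ℤ) + 2) S (H8.Lat N n) (H8.Lat_fg N n)
    (fun f hf => Lat_sep N n f hf)
    (fun _ hℓ hℓN => H8.Lat_stable_T N n hℓ hℓN)
    (fun _ hqN hq => H8.Lat_stable_U N n hq hqN)

/-- All weights. -/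
theorem moduleFinite_heckeAlgebra (N : ℕ) [NeZero N] (k : ℤ) (S : Set ℕ) :
    Module.Finite ℤ (CuspForm.heckeAlgebra N k S) := by
  rcases le_or_gt k 1 with hk | hk
  · exact H75.finite_heckeAlgebra_of_weight_le_one N k S hk
  · obtain ⟨n, rfl⟩ : ∃ n : ℕ, k = (n : ℤ) + 2 := ⟨(k - 2).toNat, by omega⟩
    exact moduleFinite_heckeAlgebra_add_two N n S

end Fermat.Agent.S22.H92
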