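import Mathlib

set_option autoImplicit false

open Complex MeasureTheory Metric Set Filter Topology

namespace Fermat.Agent.S22.H92

/-- The open upper half plane as a subset of `ℂ`. -/
def uhp : Set ℂ := {z : ℂ | 0 < z.im}

lemma isOpen_uhp : IsOpen uhp := isOpen_lt continuous_const Complex.continuous_im

lemma convex_uhp : Convex ℝ uhp := by
  intro x hx y hy a b ha hb hab
  simp only [uhp, Set.mem_setOf_eq] at *
  simp only [Complex.add_im, Complex.smul_im, smul_eq_mul]
  rcases ha.lt_or_eq with ha' | ha'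
  · have : 0 < a * x.im := mul_pos ha' hx
    have : 0 ≤ b * y.im := mul_nonneg hb hy.le
    linarith
  · have hb1 : b = 1 := by linarith
    subst ha'
    simp [hb1, hy]

lemma isPreconnected_uhp : IsPreconnected uhp := convex_uhp.isPreconnected

/-- Holomorphic functions on the upper half plane have primitives. -/
theorem exists_primitive_uhp {H : ℂ → ℂ} (hH : DifferentiableOn ℂ H uhp) :
    ∃ G : ℂ → ℂ, ∀ z, 0 < z.im → HasDerivAt G (H z) z := by
  refine ⟨fun z ↦ wedgeIntegral I z H, fun z₀ hz₀ ↦ ?_⟩
  have hcont : ContinuousOn H uhp := hH.continuousOn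
  -- choose a big ball inside the upper half plane containing `z₀`
  set R : ℝ := (z₀.re ^ 2 + z₀.im ^ 2) / (2 * z₀.im) + 1 with hRdef
  have hR0 : 0 < R := by
    have : 0 ≤ (z₀.re ^ 2 + z₀.im ^ 2) / (2 * z₀.im) := by positivity
    linarith
  have hz₀R : z₀ ∈ ball ((R : ℂ) * I) R := by
    rw [mem_ball, Complex.dist_eq, Complex.norm_eq_sqrt_sq_add_sq, Real.sqrt_lt' hR0]
    simp only [Complex.sub_re, Complex.mul_re, Complex.ofReal_re, Complex.I_re, mul_zero,
      Complex.ofReal_im, Complex.I_im, mul_one, sub_self, sub_zero, Complex.sub_im, Complex.mul_im,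
      add_zero]
    have h1 : (z₀.re ^ 2 + z₀.im ^ 2) / (2 * z₀.im) * (2 * z₀.im) = z₀.re ^ 2 + z₀.im ^ 2 := by
      field_simp
    have h2 : 2 * R * z₀.im = z₀.re ^ 2 + z₀.im ^ 2 + 2 * z₀.im := by
      rw [hRdef]; linarith
    nlinarith
  have hball : ball ((R : ℂ) * I) R ⊆ uhp := by
    intro z hz
    rw [mem_ball, Complex.dist_eq] at hz
    have h1 : |(z - (R : ℂ) * I).im| ≤ ‖z - (R : ℂ) * I‖ := Complex.abs_im_le_norm _
    simp only [Complex.sub_im, Complex.mul_im, Complex.ofReal_re, Complex.I_im, mul_one,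
      Complex.ofReal_im, Complex.I_re, mul_zero, add_zero] at h1
    have := abs_lt.mp (lt_of_le_of_lt h1 hz)
    show 0 < z.im
    linarith [this.1]
  have hcons : IsConservativeOn H uhp := hH.isConservativeOn
  have hd := (hcons.mono hball).hasDerivAt_wedgeIntegral (hcont.mono hball) hz₀R
  -- comparison of the two wedge integrals
  have key : ∀ w : ℂ, 0 < w.im →
      wedgeIntegral I w H = wedgeIntegral ((R : ℂ) * I) w H + I • ∫ y in (1 : ℝ)..R, H (y * I) := by
    intro w hw
    have hrect : Rectangle I ((w.re : ℂ) + R * I) ⊆ uhp := by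
      intro z hz
      simp only [Rectangle, mem_reProdIm] at hz
      have := hz.2
      simp only [Complex.I_im, Complex.add_im, Complex.ofReal_im, Complex.mul_im, Complex.ofReal_re,
        mul_one, Complex.I_re, mul_zero, add_zero, zero_add] at this
      rcases mem_uIcc.mp this with h | h
      · exact lt_of_lt_of_le one_pos h.1
      · exact lt_of_lt_of_le hR0 h.1
    have h1 := hcons _ _ hrect
    simp only [wedgeIntegral, Complex.I_re, Complex.I_im, Complex.add_re, Complex.ofReal_re,
      Complex.mul_re, Complex.ofReal_im, mul_zero, sub_zero, zero_mul, add_zero, Complex.add_im,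
      Complex.mul_im, mul_one, zero_add, Complex.ofReal_zero, Complex.ofReal_one, one_mul] at h1 ⊢
    -- interval integrability of the vertical integrand
    have hvert : ∀ a b : ℝ, 0 < a → 0 < b →
        IntervalIntegrable (fun y : ℝ ↦ H ((w.re : ℂ) + y * I)) volume a b := by
      intro a b ha hb
      apply ContinuousOn.intervalIntegrable
      apply hcont.comp (by fun_prop)
      intro y hy
      show 0 < ((w.re : ℂ) + y * I).im
      simp only [Complex.add_im, Complex.ofReal_im, Complex.mul_im, Complex.ofReal_re,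
        Complex.I_im, mul_one, Complex.I_re, mul_zero, add_zero, zero_add]
      rcases mem_uIcc.mp hy with h | h
      · exact lt_of_lt_of_le ha h.1
      · exact lt_of_lt_of_le hb h.1
    have h2 : (∫ y in (1 : ℝ)..w.im, H ((w.re : ℂ) + y * I)) =
        (∫ y in (1 : ℝ)..R, H ((w.re : ℂ) + y * I)) + ∫ y in R..w.im, H ((w.re : ℂ) + y * I) :=
      (intervalIntegral.integral_add_adjacent_intervals (hvert 1 R one_pos hR0)
        (hvert R w.im hR0 hw)).symm
    have e1 : (∫ x in w.re..(0 : ℝ), H ((x : ℂ) + R * I)) = -∫ x in (0 : ℝ)..w.re, H ((x : ℂ) + R * I) :=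
      intervalIntegral.integral_symm _ _
    have e2 : (∫ y in R..(1 : ℝ), H ((y : ℂ) * I)) = -∫ y in (1 : ℝ)..R, H ((y : ℂ) * I) :=
      intervalIntegral.integral_symm _ _
    rw [h2]
    simp only [smul_eq_mul] at h1 ⊢
    linear_combination h1 - e1 - I * e2
  refine (hd.add_const (I • ∫ y in (1 : ℝ)..R, H (y * I))).congr_of_eventuallyEq ?_
  filter_upwards [isOpen_uhp.mem_nhds hz₀] with w hw using key w hw

end Fermat.Agent.S22.H92
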