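import Fermat.Agent.S22.H92.Prim

set_option autoImplicit false

open Complex MeasureTheory Metric Set Filter Topology

namespace Fermat.Agent.S22.H92

/-- Exponential decay as `Im z → ∞`, uniformly on vertical strips of bounded width. -/
def StripDecay (H : ℂ → ℂ) : Prop :=
  ∃ c : ℝ, 0 < c ∧ ∀ X : ℝ, ∃ D A : ℝ, ∀ z : ℂ, A ≤ z.im → |z.re| ≤ X →
    ‖H z‖ ≤ D * Real.exp (-c * z.im)

lemma pow_le_factorial_mul_exp {c : ℝ} (hc : 0 < c) (n : ℕ) {t : ℝ} (ht : 0 ≤ t) :
    t ^ n ≤ n.factorial * (2 / c) ^ n * Real.exp (c / 2 * t) := by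
  have h := Real.pow_div_factorial_le_exp (c / 2 * t) (by positivity) n
  rw [div_le_iff₀ (by positivity)] at h
  have h2 : t ^ n = (2 / c) ^ n * (c / 2 * t) ^ n := by
    rw [← mul_pow]; congr 1; field_simp
  rw [h2]
  calc (2 / c) ^ n * (c / 2 * t) ^ n ≤ (2 / c) ^ n * (Real.exp (c / 2 * t) * n.factorial) := by
        gcongr
    _ = n.factorial * (2 / c) ^ n * Real.exp (c / 2 * t) := by ring

lemma norm_eval_le (W : Polynomial ℂ) (z : ℂ) :
    ‖W.eval z‖ ≤ (∑ i ∈ Finset.range (W.natDegree + 1), ‖W.coeff i‖) * (1 + ‖z‖) ^ W.natDegree := by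
  rw [Polynomial.eval_eq_sum_range, Finset.sum_mul]
  refine (norm_sum_le _ _).trans (Finset.sum_le_sum fun i hi ↦ ?_)
  rw [norm_mul, norm_pow]
  have hi' : i ≤ W.natDegree := Nat.lt_succ_iff.mp (Finset.mem_range.mp hi)
  have h1 : ‖z‖ ^ i ≤ (1 + ‖z‖) ^ i := by gcongr; linarith [norm_nonneg z]
  have h2 : (1 + ‖z‖) ^ i ≤ (1 + ‖z‖) ^ W.natDegree :=
    pow_le_pow_right₀ (by linarith [norm_nonneg z]) hi'
  gcongr
  exact h1.trans h2

/-- A uniformly exponentially decaying function times a polynomial decays on strips. -/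
lemma stripDecay_mul_eval {F : ℂ → ℂ} {C c A : ℝ} (hc : 0 < c)
    (hF : ∀ z : ℂ, A ≤ z.im → ‖F z‖ ≤ C * Real.exp (-c * z.im)) (W : Polynomial ℂ) :
    StripDecay (fun z ↦ F z * W.eval z) := by
  refine ⟨c / 2, by positivity, fun X ↦ ?_⟩
  set n := W.natDegree
  set K := ∑ i ∈ Finset.range (n + 1), ‖W.coeff i‖
  have hK : 0 ≤ K := Finset.sum_nonneg fun i _ ↦ norm_nonneg _
  refine ⟨|C| * (K * (n.factorial * (2 / c) ^ n * Real.exp (c / 2 * (1 + |X|)))), max A 0,
    fun z hz hzX ↦ ?_⟩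
  have hzA : A ≤ z.im := (le_max_left _ _).trans hz
  have hz0 : 0 ≤ z.im := (le_max_right _ _).trans hz
  have h1 : ‖F z‖ ≤ |C| * Real.exp (-c * z.im) :=
    (hF z hzA).trans (by gcongr; exact le_abs_self C)
  have hnz : ‖z‖ ≤ |X| + z.im := by
    calc ‖z‖ ≤ |z.re| + |z.im| := Complex.norm_le_abs_re_add_abs_im z
      _ ≤ |X| + z.im := add_le_add (hzX.trans (le_abs_self X)) (le_of_eq (abs_of_nonneg hz0))
  have h2 : ‖W.eval z‖ ≤ K * (1 + |X| + z.im) ^ n := by
    refine (norm_eval_le W z).trans ?_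
    have hbase : 1 + ‖z‖ ≤ 1 + |X| + z.im := by linarith
    exact mul_le_mul_of_nonneg_left
      (pow_le_pow_left₀ (by linarith [norm_nonneg z]) hbase n) hK
  have h3 := pow_le_factorial_mul_exp hc n (t := 1 + |X| + z.im) (by positivity)
  rw [norm_mul]
  calc ‖F z‖ * ‖W.eval z‖
      ≤ (|C| * Real.exp (-c * z.im)) *
        (K * (n.factorial * (2 / c) ^ n * Real.exp (c / 2 * (1 + |X| + z.im)))) := by
        gcongr
        exact h2.trans (by gcongr)
    _ = |C| * (K * (n.factorial * (2 / c) ^ n * Real.exp (c / 2 * (1 + |X|)))) *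
        Real.exp (-(c / 2) * z.im) := by
        have e1 : Real.exp (c / 2 * (1 + |X| + z.im)) =
            Real.exp (c / 2 * (1 + |X|)) * Real.exp (c / 2 * z.im) := by
          rw [← Real.exp_add]; ring_nf
        have e2 : Real.exp (-c * z.im) * Real.exp (c / 2 * z.im) = Real.exp (-(c / 2) * z.im) := by
          rw [← Real.exp_add]; ring_nf
        rw [e1, ← e2]; ring

lemma hasDerivAt_vertical {G : ℂ → ℂ} {g' : ℂ} (w : ℂ) (s : ℝ)
    (h : HasDerivAt G g' (w + s * I)) :
    HasDerivAt (fun t : ℝ ↦ G (w + t * I)) (g' * I) s := by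
  have h1 : HasDerivAt (fun ζ : ℂ ↦ w + ζ * I) I (s : ℂ) := by
    simpa using ((hasDerivAt_id (s : ℂ)).mul_const I).const_add w
  have h2 : HasDerivAt (fun ζ : ℂ ↦ G (w + ζ * I)) (g' * I) (s : ℂ) :=
    HasDerivAt.comp (s : ℂ) h h1
  exact h2.comp_ofReal

/-- Primitives of strip-decaying functions have a limit at `i∞` along every vertical line,
and the limit does not depend on the line. -/
theorem exists_vertical_limit {H G : ℂ → ℂ} (hG : ∀ z, 0 < z.im → HasDerivAt G (H z) z)
    (hHc : ContinuousOn H uhp) (hH : StripDecay H) :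
    ∃ L : ℂ, ∀ x : ℝ, Tendsto (fun s : ℝ ↦ G (x + s * I)) atTop (𝓝 L) := by
  obtain ⟨c, hc, hdec⟩ := hH
  -- existence of the limit on each vertical line
  have hex : ∀ x : ℝ, ∃ L : ℂ, Tendsto (fun s : ℝ ↦ G (x + s * I)) atTop (𝓝 L) := by
    intro x
    obtain ⟨D, A, hDA⟩ := hdec |x|
    set a := max A 1
    have ha : 0 < a := lt_of_lt_of_le one_pos (le_max_right _ _)
    have him : ∀ s : ℝ, ((x : ℂ) + s * I).im = s := by intro s; simp
    have hre : ∀ s : ℝ, ((x : ℂ) + s * I).re = x := by intro s; simp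
    have hderiv : ∀ s ∈ Ioi a, HasDerivAt (fun t : ℝ ↦ G (x + t * I)) (H (x + s * I) * I) s := by
      intro s hs
      exact hasDerivAt_vertical _ _ (hG _ (by rw [him]; exact ha.trans hs))
    have hint : IntegrableOn (fun s : ℝ ↦ H (x + s * I) * I) (Ioi a) := by
      have hbound : IntegrableOn (fun s : ℝ ↦ D * Real.exp (-c * s)) (Ioi a) :=
        (exp_neg_integrableOn_Ioi a hc).const_mul D
      refine Integrable.mono' hbound ?_ ?_
      · apply ContinuousOn.aestronglyMeasurable _ measurableSet_Ioi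
        apply ContinuousOn.mul _ continuousOn_const
        apply hHc.comp (by fun_prop)
        intro s hs
        show 0 < ((x : ℂ) + s * I).im
        rw [him]; exact ha.trans hs
      · refine (ae_restrict_iff' measurableSet_Ioi).mpr (Eventually.of_forall fun s hs ↦ ?_)
        have := hDA (x + s * I) (by rw [him]; exact (le_max_left _ _).trans (le_of_lt hs))
          (by rw [hre])
        rw [him] at this
        simpa using this
    exact ⟨_, tendsto_limUnder_of_hasDerivAt_of_integrableOn_Ioi hderiv hint⟩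
  choose Lx hLx using hex
  refine ⟨Lx 0, fun x ↦ ?_⟩
  suffices h : Lx x = Lx 0 by rw [← h]; exact hLx x
  -- the difference of the two vertical lines tends to zero
  obtain ⟨D, A, hDA⟩ := hdec |x|
  have hdiff : Tendsto (fun s : ℝ ↦ G (x + s * I) - G ((0 : ℝ) + s * I)) atTop (𝓝 0) := by
    have hbd : ∀ᶠ s : ℝ in atTop, ‖G (x + s * I) - G ((0 : ℝ) + s * I)‖ ≤
        |D| * Real.exp (-c * s) * |x| := by
      filter_upwards [eventually_ge_atTop (max A 1)] with s hs
      have hsA : A ≤ s := (le_max_left _ _).trans hs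
      have hs0 : 0 < s := lt_of_lt_of_le one_pos ((le_max_right _ _).trans hs)
      set S : Set ℂ := {z : ℂ | s ≤ z.im ∧ |z.re| ≤ |x|}
      have hSconv : Convex ℝ S := by
        have h1 : Convex ℝ {z : ℂ | s ≤ z.im} :=
          (convex_halfSpace_ge (Complex.imLm.isLinear) s)
        have h2 : Convex ℝ {z : ℂ | |z.re| ≤ |x|} := by
          have : {z : ℂ | |z.re| ≤ |x|} = {z : ℂ | -|x| ≤ z.re} ∩ {z : ℂ | z.re ≤ |x|} := by
            ext z; simp [abs_le]
          rw [this]
          exact (convex_halfSpace_ge (Complex.reLm.isLinear) _).inter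
            (convex_halfSpace_le (Complex.reLm.isLinear) _)
        exact h1.inter h2
      have hS : ∀ z ∈ S, HasDerivWithinAt G (H z) S z := fun z hz ↦
        (hG z (lt_of_lt_of_le hs0 hz.1)).hasDerivWithinAt
      have hb : ∀ z ∈ S, ‖H z‖ ≤ |D| * Real.exp (-c * s) := by
        intro z hz
        refine (hDA z (hsA.trans hz.1) hz.2).trans ?_
        calc D * Real.exp (-c * z.im) ≤ |D| * Real.exp (-c * z.im) := by
              gcongr; exact le_abs_self D
          _ ≤ |D| * Real.exp (-c * s) := by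
              have : -c * z.im ≤ -c * s := by nlinarith [hz.1]
              exact mul_le_mul_of_nonneg_left (Real.exp_le_exp.mpr this) (abs_nonneg D)
      have hx1 : ((0 : ℝ) : ℂ) + s * I ∈ S := by simp [S]
      have hx2 : (x : ℂ) + s * I ∈ S := by simp [S]
      have := hSconv.norm_image_sub_le_of_norm_hasDerivWithin_le hS hb hx1 hx2
      simpa using this
    have hlim : Tendsto (fun s : ℝ ↦ |D| * Real.exp (-c * s) * |x|) atTop (𝓝 0) := by
      have h1 : Tendsto (fun s : ℝ ↦ Real.exp (-c * s)) atTop (𝓝 0) := by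
        have : Tendsto (fun s : ℝ ↦ -c * s) atTop atBot := by
          have := tendsto_id.const_mul_atTop_of_neg (neg_lt_zero.mpr hc) (f := fun s : ℝ ↦ s)
          simpa using this
        exact Real.tendsto_exp_atBot.comp this
      simpa using (h1.const_mul |D|).mul_const |x|
    exact squeeze_zero_norm' hbd hlim
  have h2 : Tendsto (fun s : ℝ ↦ G (x + s * I) - G ((0 : ℝ) + s * I)) atTop (𝓝 (Lx x - Lx 0)) :=
    (hLx x).sub (hLx 0)
  have := tendsto_nhds_unique h2 hdiff
  exact sub_eq_zero.mp this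

/-- Tail bound: distance from a primitive to its vertical limit. -/
theorem norm_sub_vertical_limit_le {H G : ℂ → ℂ} (hG : ∀ z, 0 < z.im → HasDerivAt G (H z) z)
    (hHc : ContinuousOn H uhp) {τ : ℂ} (hτ : 0 < τ.im) {L : ℂ}
    (hL : Tendsto (fun s : ℝ ↦ G (τ + s * I)) atTop (𝓝 L)) {B : ℝ → ℝ}
    (hB : IntegrableOn B (Ioi 0)) (hHB : ∀ s : ℝ, 0 < s → ‖H (τ + s * I)‖ ≤ B s) :
    ‖G τ - L‖ ≤ ∫ s in Ioi (0 : ℝ), B s := by
  have him : ∀ s : ℝ, (τ + s * I).im = τ.im + s := by intro s; simp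
  have hderiv : ∀ s ∈ Ici (0 : ℝ), HasDerivAt (fun t : ℝ ↦ G (τ + t * I)) (H (τ + s * I) * I) s := by
    intro s hs
    exact hasDerivAt_vertical _ _ (hG _ (by rw [him]; exact add_pos_of_pos_of_nonneg hτ hs))
  have hint : IntegrableOn (fun s : ℝ ↦ H (τ + s * I) * I) (Ioi 0) := by
    refine Integrable.mono' hB ?_ ?_
    · apply ContinuousOn.aestronglyMeasurable _ measurableSet_Ioi
      apply ContinuousOn.mul _ continuousOn_const
      apply hHc.comp (by fun_prop)
      intro s hs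
      show 0 < (τ + s * I).im
      rw [him]; exact add_pos hτ hs
    · refine (ae_restrict_iff' measurableSet_Ioi).mpr (Eventually.of_forall fun s hs ↦ ?_)
      simpa using hHB s hs
  have hcw : ContinuousWithinAt (fun t : ℝ ↦ G (τ + t * I)) (Ici 0) 0 :=
    (hderiv 0 self_mem_Ici).continuousAt.continuousWithinAt
  have key := integral_Ioi_of_hasDerivAt_of_tendsto hcw (fun s hs ↦ hderiv s (Ioi_subset_Ici_self hs)) hint hL
  have h0 : G (τ + ((0 : ℝ) : ℂ) * I) = G τ := by simp
  rw [h0] at key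
  rw [norm_sub_rev, ← key]
  refine norm_integral_le_of_norm_le hB ?_
  refine (ae_restrict_iff' measurableSet_Ioi).mpr (Eventually.of_forall fun s hs ↦ ?_)
  simpa using hHB s hs

end Fermat.Agent.S22.H92
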